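import Fermat.Agent.S56.GW.RQSpec
import Fermat.Agent.S56.RQ.Spec

/-!
# Row S56 — (REC-Q): `GW.InvRecStatement ⇔ RQ.PlainRecipStatement` (helper546)

The reciprocity packages of the two layer-4 interfaces (`GW/RQSpec.lean`, helper546, curried
2-cochains `G_ℚ → G_ℚ → k`; `RQ/Spec.lean`, helper554, uncurried `G_ℚ × G_ℚ → k`) are the same
statement.  So ONE bridge to S55 serves both routes:

    theorem invRec_of_plainRecip : RQ.PlainRecipStatement → GW.InvRecStatement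
    theorem plainRecip_of_invRec : GW.InvRecStatement → RQ.PlainRecipStatement
-/

set_option autoImplicit false

noncomputable section

namespace Fermat.Agent.S56.GW

open Fermat.Agent.S56 Fermat.Agent.S56.H716

variable {k : Type} [Field k] {p : ℕ}

/-- Uncurrying of 2-cochains, as a linear equivalence. -/
def uncurryL (k : Type) [Field k] : (GQ → GQ → k) ≃ₗ[k] (GQ × GQ → k) :=
  (LinearEquiv.curry k k GQ GQ).symm

@[simp] theorem uncurryL_apply (f : GQ → GQ → k) (x : GQ × GQ) :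
    uncurryL k f x = f x.1 x.2 := rfl

@[simp] theorem uncurryL_symm_apply (z : GQ × GQ → k) (σ τ : GQ) :
    (uncurryL k).symm z σ τ = z (σ, τ) := rfl

theorem isCob₂On_iff {H : Subgroup GQ} (f : GQ → GQ → k) :
    RQ.IsCob₂On p H (uncurryL k f) ↔ IsTw2CoboundaryOn p H f := Iff.rfl

theorem isLC₂On_iff {H : Subgroup GQ} (f : GQ → GQ → k) :
    RQ.IsLC₂On H (uncurryL k f) ↔ HasLevelOn₂ H f := Iff.rfl

theorem isCoc₂On_iff {H : Subgroup GQ} (f : GQ → GQ → k) :
    RQ.IsCoc₂On p H (uncurryL k f) ↔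
      ∀ σ ∈ H, ∀ τ ∈ H, ∀ υ ∈ H, ∀ a : ℕ, IsCycExp p σ a →
        (a : k) * f τ υ - f (σ * τ) υ + f σ (τ * υ) - f σ τ = 0 := by
  constructor
  · intro h σ hσ τ hτ υ hυ a ha
    have := h σ hσ τ hτ υ hυ a ha
    simp only [uncurryL_apply] at this
    linear_combination this
  · intro h σ hσ τ hτ υ hυ a ha
    have := h σ hσ τ hτ υ hυ a ha
    simp only [uncurryL_apply]
    linear_combination this

theorem isGlobZ_iff (T : Finset ℕ) (f : GQ → GQ → k) :
    RQ.IsGlobZ p T (uncurryL k f) ↔ IsGlobalTw2Cocycle p T f := by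
  constructor
  · rintro ⟨h1, L, hL, hur, hlev⟩
    refine ⟨fun σ τ υ a ha => ?_, L, hL, hur, fun σ τ α β hα hβ => hlev σ τ α β hα hβ⟩
    exact (isCoc₂On_iff f).1 h1 σ (Subgroup.mem_top σ) τ (Subgroup.mem_top τ) υ
      (Subgroup.mem_top υ) a ha
  · rintro ⟨h1, L, hL, hur, hlev⟩
    refine ⟨(isCoc₂On_iff f).2 fun σ _ τ _ υ _ a ha => h1 σ τ υ a ha, L, hL, hur,
      fun σ τ α β hα hβ => hlev σ τ α β hα hβ⟩

/-- `RQ.PlainRecip ⇒ GW.InvRec`. -/
theorem invRec_of_plainRecip' {T : Finset ℕ} (h : RQ.PlainRecip k p T) : InvRec k p T := by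
  obtain ⟨Pv, inv, hPv, hcob, hinj, hrec⟩ := h
  refine ⟨Pv, fun v => (inv v).comp (uncurryL k).toLinearMap, hPv, ?_, ?_, ?_⟩
  · intro v hv f hf
    exact hcob v hv _ ((isCob₂On_iff f).2 hf)
  · intro v hv hpv f hf h0
    exact (isCob₂On_iff f).1 (hinj v hv hpv _ ((isCoc₂On_iff f).2 hf.1)
      ((isLC₂On_iff f).2 hf.2) h0)
  · intro f hf
    exact hrec _ ((isGlobZ_iff T f).2 hf)

/-- `GW.InvRec ⇒ RQ.PlainRecip`. -/
theorem plainRecip_of_invRec' {T : Finset ℕ} (h : InvRec k p T) : RQ.PlainRecip k p T := by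
  obtain ⟨Pv, inv, hPv, hcob, hinj, hrec⟩ := h
  refine ⟨Pv, fun v => (inv v).comp (uncurryL k).symm.toLinearMap, hPv, ?_, ?_, ?_⟩
  · intro v hv z hz
    exact hcob v hv _ ((isCob₂On_iff ((uncurryL k).symm z)).1 hz)
  · intro v hv hpv z hz hlc h0
    exact (isCob₂On_iff ((uncurryL k).symm z)).2 (hinj v hv hpv _
      ⟨(isCoc₂On_iff ((uncurryL k).symm z)).1 hz, (isLC₂On_iff ((uncurryL k).symm z)).1 hlc⟩ h0)
  · intro z hz
    exact hrec _ ((isGlobZ_iff T ((uncurryL k).symm z)).1 hz)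

/-- **`RQ.PlainRecipStatement ⇒ GW.InvRecStatement`.** -/
theorem invRec_of_plainRecip (h : RQ.PlainRecipStatement) : InvRecStatement :=
  fun k _ _ p _ hp hp2 T hT hpT => invRec_of_plainRecip' (h k p hp hp2 T hpT hT)

/-- **`GW.InvRecStatement ⇒ RQ.PlainRecipStatement`.** -/
theorem plainRecip_of_invRec (h : InvRecStatement) : RQ.PlainRecipStatement :=
  fun k _ _ p _ hp hp2 T hpT hT => plainRecip_of_invRec' (h k p hp hp2 T hT hpT)

end Fermat.Agent.S56.GW

end
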