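import Fermat.Agent.S56.H831.GWAbstract

/-!
# Row S56 — (REC-Q), layer 4: the abstract comparison lemma (helper546)

Pure linear algebra over a field `k` (Mathlib + `H831/GWAbstract.comparison_abstract`).

`exists_complement_of_pairing`: let `E, D ≤ F`, `D` finite-dimensional, and for every `q` in a
finite index set let `Z q, Zur q ≤ F` and a bilinear form `B q` on `F` be given with

* `E ≤ Z q`;
* (LINE) any two elements of `Z q` have a non-trivial combination in `Zur q`;
* (UR) `B q x y = 0` for `x ∈ Zur q`, `y ∈ D`;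
* (ND) `y ∈ D` with `B q x y = 0` for all `q` and all `x ∈ Z q` is zero;
* (REC) `∑_q B q c y = 0` for `c ∈ E`, `y ∈ D`.

Then there is `U ≤ E` with `dim U + dim D ≤ #ι` and `E ⊂ U + ⋂_q Zur q`.
-/

set_option autoImplicit false

open Module

namespace Fermat.Agent.S56.GW

section

variable {k F : Type*} [Field k] [AddCommGroup F] [Module k F]

/-- A coordinate for a "line modulo `Zur`". -/
theorem exists_coordinate (Z Zur : Submodule k F)
    (hline : ∀ x₁ ∈ Z, ∀ x₂ ∈ Z, ∃ a b : k, (a ≠ 0 ∨ b ≠ 0) ∧ a • x₁ + b • x₂ ∈ Zur) :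
    ∃ (x₀ : F) (t : F →ₗ[k] k), x₀ ∈ Z ∧ ∀ x ∈ Z, x - t x • x₀ ∈ Zur := by
  classical
  by_cases hle : Z ≤ Zur
  · exact ⟨0, 0, Z.zero_mem, fun x hx => by simpa using hle hx⟩
  · obtain ⟨x₀, hx₀Z, hx₀⟩ := Set.not_subset.1 hle
    have hx₀' : x₀ ∉ Zur := hx₀
    obtain ⟨f, hf0, hfZ⟩ := Submodule.exists_dual_map_eq_bot_of_notMem hx₀' inferInstance
    have hfz : ∀ z ∈ Zur, f z = 0 := by
      intro z hz
      have : f z ∈ Zur.map f := Submodule.mem_map_of_mem hz
      rw [hfZ] at this
      exact (Submodule.mem_bot k).1 this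
    refine ⟨x₀, (f x₀)⁻¹ • f, hx₀Z, fun x hx => ?_⟩
    obtain ⟨a, b, hab, hmem⟩ := hline x hx x₀ hx₀Z
    have hval := hfz _ hmem
    rw [map_add, map_smul, map_smul, smul_eq_mul, smul_eq_mul] at hval
    have ha : a ≠ 0 := by
      rintro rfl
      rw [zero_mul, zero_add] at hval
      rcases hab with h | h
      · exact h rfl
      · rcases mul_eq_zero.1 hval with h' | h'
        · exact h h'
        · exact hf0 h'
    have ht : ((f x₀)⁻¹ • f) x = -(b / a) := by
      rw [LinearMap.smul_apply, smul_eq_mul]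
      field_simp
      linear_combination hval
    rw [ht]
    have : x - -(b / a) • x₀ = a⁻¹ • (a • x + b • x₀) := by
      rw [smul_add, smul_smul, smul_smul, inv_mul_cancel₀ ha, one_smul, neg_smul, sub_neg_eq_add,
        div_eq_inv_mul]
    rw [this]
    exact Zur.smul_mem _ hmem

variable {ι : Type*} [Fintype ι]

/-- **The abstract comparison lemma for (REC-Q).** -/
theorem exists_complement_of_pairing
    (Z Zur : ι → Submodule k F) (E D : Submodule k F) [Module.Finite k D]
    (B : ι → F →ₗ[k] F →ₗ[k] k)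
    (hEZ : ∀ q, E ≤ Z q)
    (hline : ∀ q, ∀ x₁ ∈ Z q, ∀ x₂ ∈ Z q,
      ∃ a b : k, (a ≠ 0 ∨ b ≠ 0) ∧ a • x₁ + b • x₂ ∈ Zur q)
    (hur : ∀ q, ∀ x ∈ Zur q, ∀ y ∈ D, B q x y = 0)
    (hnd : ∀ y ∈ D, (∀ q, ∀ x ∈ Z q, B q x y = 0) → y = 0)
    (hrec : ∀ c ∈ E, ∀ y ∈ D, ∑ q, B q c y = 0) :
    ∃ U : Submodule k F, U ≤ E ∧ Module.Finite k U ∧
      finrank k U + finrank k D ≤ Fintype.card ι ∧
      ∀ c ∈ E, ∃ u ∈ U, ∀ q, c - u ∈ Zur q := by
  classical
  choose x₀ t hx₀ ht using fun q => exists_coordinate (Z q) (Zur q) (hline q)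
  -- the coordinate map on `E`
  let R : ↥E →ₗ[k] (ι → k) := LinearMap.pi fun q => (t q).comp E.subtype
  -- the pairing map on `D`
  let lam : ↥D →ₗ[k] Dual k (ι → k) :=
    { toFun := fun y => ∑ q, (B q (x₀ q) y) • (LinearMap.proj q : (ι → k) →ₗ[k] k)
      map_add' := fun y y' => by
        simp only [Submodule.coe_add, map_add, add_smul, Finset.sum_add_distrib]
      map_smul' := fun a y => by
        simp only [Submodule.coe_smul, map_smul, smul_eq_mul, RingHom.id_apply, mul_smul,
          Finset.smul_sum] }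
  have hlam_apply : ∀ (y : ↥D) (w : ι → k), lam y w = ∑ q, B q (x₀ q) y * w q := by
    intro y w
    show (∑ q, (B q (x₀ q) y) • (LinearMap.proj q : (ι → k) →ₗ[k] k)) w = _
    rw [LinearMap.sum_apply]
    rfl
  have hBx : ∀ q, ∀ x ∈ Z q, ∀ y ∈ D, B q x y = t q x * B q (x₀ q) y := by
    intro q x hx y hy
    have h1 := hur q _ (ht q x hx) y hy
    rw [map_sub, LinearMap.sub_apply, map_smul, LinearMap.smul_apply, smul_eq_mul,
      sub_eq_zero] at h1
    exact h1
  have hinj : Function.Injective lam := by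
    refine (injective_iff_map_eq_zero lam).2 fun y hy => ?_
    have hcoef : ∀ q, B q (x₀ q) y = 0 := by
      intro q
      have h1 := hlam_apply y (Pi.single q 1)
      rw [hy, LinearMap.zero_apply] at h1
      rw [Finset.sum_eq_single q (fun q' _ hq' => by rw [Pi.single_eq_of_ne hq', mul_zero])
        (fun h => absurd (Finset.mem_univ q) h), Pi.single_eq_same, mul_one] at h1
      exact h1.symm
    have : (y : F) = 0 := hnd y y.2 fun q x hx => by
      rw [hBx q x hx y y.2, hcoef q, mul_zero]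
    exact Subtype.ext this
  have hrec' : ∀ (y : ↥D) (w : ↥(LinearMap.range R)),
      lam y ((LinearMap.range R).subtype w) = 0 := by
    rintro y ⟨_, c, rfl⟩
    rw [Submodule.subtype_apply, hlam_apply]
    have h1 := hrec c c.2 y y.2
    rw [← h1]
    refine Finset.sum_congr rfl fun q _ => ?_
    rw [hBx q c (hEZ q c.2) y y.2]
    show B q (x₀ q) y * t q c = _
    ring
  have hker : LinearMap.ker (LinearMap.range R).subtype = ⊥ := Submodule.ker_subtype _
  have hfinker : FiniteDimensional k ↥(LinearMap.ker (LinearMap.range R).subtype) := by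
    rw [hker]; infer_instance
  have hcomp := Fermat.Agent.S56.H831.comparison_abstract (LinearMap.range R).subtype lam hinj
    hrec'
  rw [hker, finrank_bot, zero_add, Module.finrank_pi] at hcomp
  -- a section of `R` over its range
  obtain ⟨g, hg⟩ := LinearMap.exists_rightInverse_of_surjective R.rangeRestrict
    (LinearMap.range_rangeRestrict R)
  refine ⟨LinearMap.range (E.subtype.comp g), ?_, inferInstance, ?_, ?_⟩
  · rintro _ ⟨w, rfl⟩
    exact (g w).2
  · have := LinearMap.finrank_range_le (E.subtype.comp g)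
    omega
  · intro c hc
    refine ⟨E.subtype (g (R.rangeRestrict ⟨c, hc⟩)), ⟨_, rfl⟩, fun q => ?_⟩
    set u : ↥E := g (R.rangeRestrict ⟨c, hc⟩) with hu
    have hRu : R u = R ⟨c, hc⟩ := by
      have := LinearMap.congr_fun hg (R.rangeRestrict ⟨c, hc⟩)
      have h2 := congrArg Subtype.val this
      simpa using h2
    have htq : t q ((⟨c, hc⟩ : ↥E) : F) = t q (u : F) := (congrFun hRu q).symm
    have hmem : c - (u : F) ∈ Z q := (Z q).sub_mem (hEZ q hc) (hEZ q u.2)
    have h3 := ht q _ hmem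
    rw [map_sub] at h3
    have h4 : t q c - t q (u : F) = 0 := sub_eq_zero.2 htq
    rw [h4, zero_smul, sub_zero] at h3
    exact h3

end

end Fermat.Agent.S56.GW
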