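import Fermat.Agent.S56.GW.RQSpec
import Fermat.Agent.S56.H716.GWGlue
import Fermat.Agent.S56.H546.Cyc

/-!
# Row S56 — (REC-Q), layer 4: algebra of the cup product (helper546)

Everything here is elementary algebra with plain cochains:

* `cupL` — the cup product as a `k`-bilinear map;
* `locZ`, `locZur`, `selSub` — the submodules of local cocycles on `D_P`, of the unramified ones,
  and of the strict Selmer cocycles;
* `cup_isTw2CocycleOn` — the cup product of local cocycles is a local twisted 2-cocycle;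
* `cup_isTw2CoboundaryOn_of_coboundary` — `dm ∪ y = d(tr (m · y))`;
* `cup_right_invariant` — invariance of `cup c y` under an element killed by `c`, `y`, `ρ̄`.
-/

set_option autoImplicit false

open Polynomial IsLocalRing

noncomputable section

namespace Fermat.Agent.S56.GW

open Fermat.Agent.S56 Fermat.Agent.S56.H716

section Basic

variable {k : Type} [Field k] (ρbar : ResidualGaloisRep k)

theorem rho_mul_rho_inv (σ : GQ) : ρbar.ρ σ * ρbar.ρ σ⁻¹ = 1 := by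
  rw [← map_mul, mul_inv_cancel, map_one]

theorem rho_inv_mul_rho (σ : GQ) : ρbar.ρ σ⁻¹ * ρbar.ρ σ = 1 := by
  rw [← map_mul, inv_mul_cancel, map_one]

theorem trace_conj_rho (σ : GQ) (A : Module.End k ρbar.V) :
    LinearMap.trace k ρbar.V (ρbar.ρ σ * A * ρbar.ρ σ⁻¹) = LinearMap.trace k ρbar.V A := by
  rw [mul_assoc, LinearMap.trace_mul_comm, mul_assoc, rho_inv_mul_rho, mul_one]

theorem conj_mul_conj (σ : GQ) (A B : Module.End k ρbar.V) :
    (ρbar.ρ σ * A * ρbar.ρ σ⁻¹) * (ρbar.ρ σ * B * ρbar.ρ σ⁻¹) =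
      ρbar.ρ σ * (A * B) * ρbar.ρ σ⁻¹ := by
  have h : ρbar.ρ σ * A * ρbar.ρ σ⁻¹ * (ρbar.ρ σ * B * ρbar.ρ σ⁻¹) =
      ρbar.ρ σ * A * (ρbar.ρ σ⁻¹ * ρbar.ρ σ) * B * ρbar.ρ σ⁻¹ := by
    simp only [mul_assoc]
  rw [h, rho_inv_mul_rho, mul_one, mul_assoc (ρbar.ρ σ) A B]

theorem conj_conj (σ τ : GQ) (A : Module.End k ρbar.V) :
    ρbar.ρ σ * (ρbar.ρ τ * A * ρbar.ρ τ⁻¹) * ρbar.ρ σ⁻¹ =
      ρbar.ρ (σ * τ) * A * ρbar.ρ (σ * τ)⁻¹ := by
  rw [mul_inv_rev, ρbar.ρ.map_mul, ρbar.ρ.map_mul]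
  simp only [mul_assoc]

theorem rho_inv_eq_one {α : GQ} (h : ρbar.ρ α = 1) : ρbar.ρ α⁻¹ = 1 := by
  have := rho_inv_mul_rho ρbar α
  rwa [h, mul_one] at this

theorem rho_mul_of_eq_one (σ : GQ) {α : GQ} (h : ρbar.ρ α = 1) :
    ρbar.ρ (σ * α) = ρbar.ρ σ := by
  rw [ρbar.ρ.map_mul, h, mul_one]

theorem rho_mul_inv_of_eq_one (σ : GQ) {α : GQ} (h : ρbar.ρ α = 1) :
    ρbar.ρ (σ * α)⁻¹ = ρbar.ρ σ⁻¹ := by
  rw [mul_inv_rev, ρbar.ρ.map_mul, rho_inv_eq_one ρbar h, one_mul]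

theorem det_rho_mul (σ τ : GQ) : LinearMap.det (ρbar.ρ (σ * τ)) =
    LinearMap.det (ρbar.ρ σ) * LinearMap.det (ρbar.ρ τ) := by
  rw [ρbar.ρ.map_mul]
  exact MonoidHom.map_mul _ _ _

theorem trace_mul_smul (d : k) (A B : Module.End k ρbar.V) :
    LinearMap.trace k ρbar.V (A * (d • B)) = d * LinearMap.trace k ρbar.V (A * B) := by
  rw [mul_smul_comm, LinearMap.map_smul, smul_eq_mul]

theorem conj_add (σ : GQ) (A B : Module.End k ρbar.V) :
    ρbar.ρ σ * (A + B) * ρbar.ρ σ⁻¹ = ρbar.ρ σ * A * ρbar.ρ σ⁻¹ + ρbar.ρ σ * B * ρbar.ρ σ⁻¹ := by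
  rw [mul_add, add_mul]

theorem conj_smul (σ : GQ) (d : k) (A : Module.End k ρbar.V) :
    ρbar.ρ σ * (d • A) * ρbar.ρ σ⁻¹ = d • (ρbar.ρ σ * A * ρbar.ρ σ⁻¹) := by
  rw [mul_smul_comm, smul_mul_assoc]

theorem trace_conj_mul_conj (σ : GQ) (A B : Module.End k ρbar.V) :
    LinearMap.trace k ρbar.V ((ρbar.ρ σ * A * ρbar.ρ σ⁻¹) * (ρbar.ρ σ * B * ρbar.ρ σ⁻¹)) =
      LinearMap.trace k ρbar.V (A * B) := by
  rw [conj_mul_conj, trace_conj_rho]

theorem cup_add_left (x x' y : GQ → Module.End k ρbar.V) :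
    cup ρbar (x + x') y = cup ρbar x y + cup ρbar x' y := by
  funext σ τ
  simp only [cup, Pi.add_apply, add_mul, map_add]

theorem cup_smul_left (a : k) (x y : GQ → Module.End k ρbar.V) :
    cup ρbar (a • x) y = a • cup ρbar x y := by
  funext σ τ
  simp only [cup, Pi.smul_apply, smul_mul_assoc, map_smul]

theorem cup_add_right (x y y' : GQ → Module.End k ρbar.V) :
    cup ρbar x (y + y') = cup ρbar x y + cup ρbar x y' := by
  funext σ τ
  simp only [cup, Pi.add_apply, mul_add, add_mul, smul_add, map_add]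

theorem cup_smul_right (a : k) (x y : GQ → Module.End k ρbar.V) :
    cup ρbar x (a • y) = a • cup ρbar x y := by
  funext σ τ
  simp only [cup, Pi.smul_apply, mul_smul_comm, smul_mul_assoc, map_smul, smul_eq_mul]
  ring

/-- The cup product as a bilinear map. -/
def cupL : (GQ → Module.End k ρbar.V) →ₗ[k] (GQ → Module.End k ρbar.V) →ₗ[k] (GQ → GQ → k) :=
  LinearMap.mk₂ k (cup ρbar) (cup_add_left ρbar) (cup_smul_left ρbar) (cup_add_right ρbar)
    (cup_smul_right ρbar)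

@[simp] theorem cupL_apply (x y : GQ → Module.End k ρbar.V) : cupL ρbar x y = cup ρbar x y := rfl

end Basic

section Levels

theorem HasLevelOn.add {X : Type*} [Add X] {H : Subgroup GQ} {c c' : GQ → X}
    (h : HasLevelOn H c) (h' : HasLevelOn H c') : HasLevelOn H (c + c') := by
  obtain ⟨L, hL, hLc⟩ := h
  obtain ⟨L', hL', hLc'⟩ := h'
  refine ⟨L ⊔ L', inferInstance, fun σ hσ τ hτ hfix => ?_⟩
  simp only [Pi.add_apply]
  rw [hLc σ hσ τ hτ fun x hx => hfix x ((le_sup_left : L ≤ L ⊔ L') hx),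
    hLc' σ hσ τ hτ fun x hx => hfix x ((le_sup_right : L' ≤ L ⊔ L') hx)]

theorem HasLevelOn.comp {X Y : Type*} {H : Subgroup GQ} {c : GQ → X} (h : HasLevelOn H c)
    (g : X → Y) : HasLevelOn H (fun σ => g (c σ)) := by
  obtain ⟨L, hL, hLc⟩ := h
  exact ⟨L, hL, fun σ hσ τ hτ hfix => by simp only; rw [hLc σ hσ τ hτ hfix]⟩

theorem hasLevelOn_zero {X : Type*} [Zero X] (H : Subgroup GQ) :
    HasLevelOn H (0 : GQ → X) :=
  ⟨⊥, inferInstance, fun _ _ _ _ _ => rfl⟩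

end Levels

section Submodules

variable {k : Type} [Field k] (ρbar : ResidualGaloisRep k) (p : ℕ)

theorem IsAdCocycleOn.zero (H : Subgroup GQ) :
    IsAdCocycleOn ρbar H (0 : GQ → Module.End k ρbar.V) where
  trace_eq_zero σ _ := by simp
  map_mul σ _ τ _ := by simp
  level := hasLevelOn_zero H

theorem IsAdCocycleOn.add {H : Subgroup GQ} {x x' : GQ → Module.End k ρbar.V}
    (h : IsAdCocycleOn ρbar H x) (h' : IsAdCocycleOn ρbar H x') :
    IsAdCocycleOn ρbar H (x + x') where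
  trace_eq_zero σ hσ := by
    rw [Pi.add_apply, map_add, h.trace_eq_zero σ hσ, h'.trace_eq_zero σ hσ, add_zero]
  map_mul σ hσ τ hτ := by
    simp only [Pi.add_apply]
    rw [h.map_mul σ hσ τ hτ, h'.map_mul σ hσ τ hτ, mul_add, add_mul]
    abel
  level := h.level.add h'.level

theorem IsAdCocycleOn.smul {H : Subgroup GQ} {x : GQ → Module.End k ρbar.V} (a : k)
    (h : IsAdCocycleOn ρbar H x) : IsAdCocycleOn ρbar H (a • x) where
  trace_eq_zero σ hσ := by rw [Pi.smul_apply, map_smul, h.trace_eq_zero σ hσ, smul_zero]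
  map_mul σ hσ τ hτ := by
    simp only [Pi.smul_apply]
    rw [h.map_mul σ hσ τ hτ, smul_add, mul_smul_comm, smul_mul_assoc]
  level := h.level.comp (fun m => a • m)

/-- The local ad⁰-cocycles on `H`. -/
def locZ (H : Subgroup GQ) : Submodule k (GQ → Module.End k ρbar.V) where
  carrier := {x | IsAdCocycleOn ρbar H x}
  add_mem' := fun h h' => h.add ρbar h'
  zero_mem' := IsAdCocycleOn.zero ρbar H
  smul_mem' := fun a _ h => h.smul ρbar a

/-- The local ad⁰-cocycles on `H` vanishing on `I`. -/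
def locZur (H I : Subgroup GQ) : Submodule k (GQ → Module.End k ρbar.V) where
  carrier := {x | IsAdCocycleOn ρbar H x ∧ ∀ σ ∈ I, x σ = 0}
  add_mem' := fun h h' => ⟨h.1.add ρbar h'.1, fun σ hσ => by
    rw [Pi.add_apply, h.2 σ hσ, h'.2 σ hσ, add_zero]⟩
  zero_mem' := ⟨IsAdCocycleOn.zero ρbar H, fun _ _ => rfl⟩
  smul_mem' := fun a _ h => ⟨h.1.smul ρbar a, fun σ hσ => by
    rw [Pi.smul_apply, h.2 σ hσ, smul_zero]⟩

/-- The strict Selmer cocycles of `Q`. -/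
def selSub (Pl : ℕ → ValuationSubring Qb) (Smin Q : Finset ℕ) :
    Submodule k (GQ → Module.End k ρbar.V) where
  carrier := {c | IsSelCocycle ρbar Pl (fun _ => ⊥) Smin Q c}
  add_mem' := fun h h' => h.add ρbar h'
  zero_mem' := IsSelCocycle.zero ρbar Pl _ Smin Q
  smul_mem' := fun a _ h => h.smul ρbar a

variable {ρbar}

theorem isAdCocycleOn_of_global {c : GQ → Module.End k ρbar.V} (h : IsAdCocycle ρbar c)
    (H : Subgroup GQ) : IsAdCocycleOn ρbar H c where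
  trace_eq_zero σ _ := h.trace_eq_zero σ
  map_mul σ _ τ _ := h.map_mul σ τ
  level := by
    obtain ⟨L, hL, hLc⟩ := h.level
    exact ⟨L, hL, fun σ _ τ _ hfix => hLc σ τ hfix⟩

theorem isTwCocycleOn_of_global {p : ℕ} {y : GQ → Module.End k ρbar.V}
    (h : IsTwCocycle ρbar p y) (H : Subgroup GQ) : IsTwCocycleOn ρbar p H y where
  trace_eq_zero σ _ := h.trace_eq_zero σ
  map_mul σ _ τ _ a ha := h.map_mul σ τ a ha
  level := by
    obtain ⟨L, hL, hLc⟩ := h.level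
    exact ⟨L, hL, fun σ _ τ _ hfix => hLc σ τ hfix⟩

end Submodules

section CupAlgebra

variable {k : Type} [Field k] {ρbar : ResidualGaloisRep k} {p : ℕ}

/-- The twisted cocycle relation with `ε = det ρ̄`. -/
theorem IsTwCocycleOn.map_mul_det (hp : p ≠ 0)
    (hdet : ∀ (σ : GQ) (a : ℕ), IsCycExp p σ a → LinearMap.det (ρbar.ρ σ) = (a : k))
    {H : Subgroup GQ} {y : GQ → Module.End k ρbar.V} (hy : IsTwCocycleOn ρbar p H y)
    {σ τ : GQ} (hσ : σ ∈ H) (hτ : τ ∈ H) :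
    y (σ * τ) = y σ + LinearMap.det (ρbar.ρ σ) • (ρbar.ρ σ * y τ * ρbar.ρ σ⁻¹) := by
  obtain ⟨a, ha⟩ := Fermat.Agent.S56.H546.exists_isCycExp p hp σ
  rw [hy.map_mul σ hσ τ hτ a ha, hdet σ a ha]
  rfl

/-- The cup product of a local ad⁰-cocycle and a local twisted cocycle is a local twisted
2-cocycle. -/
theorem cup_isTw2CocycleOn (hp : p ≠ 0)
    (hdet : ∀ (σ : GQ) (a : ℕ), IsCycExp p σ a → LinearMap.det (ρbar.ρ σ) = (a : k))
    {H : Subgroup GQ} {x y : GQ → Module.End k ρbar.V}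
    (hx : IsAdCocycleOn ρbar H x) (hy : IsTwCocycleOn ρbar p H y) :
    IsTw2CocycleOn p H (cup ρbar x y) := by
  refine ⟨fun σ hσ τ hτ υ hυ a ha => ?_, ?_⟩
  · have hx' := hx.map_mul σ hσ τ hτ
    have hy' := hy.map_mul_det hp hdet hτ hυ
    have ha' : (a : k) = LinearMap.det (ρbar.ρ σ) := (hdet σ a ha).symm
    have hconj := (conj_conj ρbar σ τ (y υ)).symm
    simp only [cup]
    rw [hx', hy', det_rho_mul, hconj, ha', conj_add, conj_smul]
    simp only [trace_mul_smul, add_mul, mul_add, map_add, trace_conj_mul_conj]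
    ring
  · obtain ⟨L₁, hL₁, h₁⟩ := hx.level
    obtain ⟨L₂, hL₂, h₂⟩ := hy.level
    obtain ⟨L₃, hL₃, h₃⟩ := ρbar.factorsThroughFiniteLevel
    refine ⟨L₁ ⊔ L₂ ⊔ L₃, inferInstance, fun σ hσ τ hτ α hα β hβ hfα hfβ => ?_⟩
    have hα1 : ∀ z ∈ L₁, α z = z := fun z hz =>
      hfα z ((le_sup_left : L₁ ≤ L₁ ⊔ L₂).trans le_sup_left hz)
    have hβ2 : ∀ z ∈ L₂, β z = z := fun z hz =>
      hfβ z ((le_sup_right : L₂ ≤ L₁ ⊔ L₂).trans le_sup_left hz)
    have hα3 : ρbar.ρ α = 1 := h₃ α fun z hz => hfα z ((le_sup_right : L₃ ≤ _) hz)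
    simp only [cup]
    rw [h₁ σ hσ α hα hα1, h₂ τ hτ β hβ hβ2, rho_mul_of_eq_one ρbar σ hα3,
      rho_mul_inv_of_eq_one ρbar σ hα3]

/-- `dm ∪ y = d (tr (m · y))`: the cup product with a local coboundary is a local 2-coboundary. -/
theorem cup_isTw2CoboundaryOn_of_coboundary (hp : p ≠ 0)
    (hdet : ∀ (σ : GQ) (a : ℕ), IsCycExp p σ a → LinearMap.det (ρbar.ρ σ) = (a : k))
    {H : Subgroup GQ} {c y : GQ → Module.End k ρbar.V}
    (hc : IsAdCoboundaryOn ρbar H c) (hy : IsTwCocycleOn ρbar p H y) :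
    IsTw2CoboundaryOn p H (cup ρbar c y) := by
  obtain ⟨m, hm⟩ := hc
  refine ⟨fun τ => LinearMap.trace k ρbar.V (m * y τ),
    hy.level.comp (fun z => LinearMap.trace k ρbar.V (m * z)), fun σ hσ τ hτ a ha => ?_⟩
  have ha' : (a : k) = LinearMap.det (ρbar.ρ σ) := (hdet σ a ha).symm
  simp only [cup]
  rw [hm σ hσ, hy.map_mul_det hp hdet hσ hτ, ha']
  simp only [trace_mul_smul, sub_mul, mul_add, map_add, map_sub, trace_conj_mul_conj]
  ring

/-- Right-invariance of the cup product under elements which are invisible to `c`, `y`, `ρ̄`. -/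
theorem cup_mul_right_eq {c y : GQ → Module.End k ρbar.V}
    {α β : GQ} (hcα : ∀ σ, c (σ * α) = c σ) (hρα : ρbar.ρ α = 1) (hyβ : ∀ τ, y (τ * β) = y τ)
    (σ τ : GQ) : cup ρbar c y (σ * α) (τ * β) = cup ρbar c y σ τ := by
  simp only [cup]
  rw [hcα σ, hyβ τ, rho_mul_of_eq_one ρbar σ hρα, rho_mul_inv_of_eq_one ρbar σ hρα]

end CupAlgebra

end Fermat.Agent.S56.GW

end
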