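import Fermat.Agent.S56.H716.GWSpec

/-!
# Row S56 — (REC-Q), layer 4: FROZEN definitions (sub-architect helper546)

Plain-function language of layers 0–3 (`c : G_ℚ → End_k V`, `V = ρbar.V`, `M = ad⁰ρ̄`,
`M' = M(1)`), extended to

* LOCAL cocycles: functions on `G_ℚ` which satisfy the cocycle relation only on a subgroup `H`
  (in practice `H = D_P`, a decomposition group), of finite level on `H`:
  `IsAdCocycleOn ρbar H x` (values in `M`), `IsTwCocycleOn ρbar p H y` (values in `M'`);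
* twisted 2-cochains with values in `k(1)`: plain functions `f : G_ℚ → G_ℚ → k`;
  `IsTw2CocycleOn p H f`, `IsTw2CoboundaryOn p H f` (on a subgroup, finite level),
  `IsGlobalTw2Cocycle p T f` (on `G_ℚ`, with a finite level unramified outside `T`);
* the cup product `cup ρbar x y (σ, τ) = tr (x σ · ε(σ) ρ̄σ y(τ) ρ̄σ⁻¹)`, where `ε(σ)` is
  written `det ρ̄(σ)` (under `Hyp`, `det ρ̄(σ) = a` whenever `IsCycExp p σ a`:
  `Fermat.Agent.S56.H546.det_eq_of_isCycExp`).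

Nothing unproved in this file.  Plan: `coord/S56-RECQ-helper546.md`.
-/

set_option autoImplicit false

open Polynomial IsLocalRing

noncomputable section

namespace Fermat.Agent.S56.GW

open Fermat.Agent.S56 Fermat.Agent.S56.H716

section Levels

/-- The 1-cochain `c` has finite level on the subgroup `H`. -/
def HasLevelOn {X : Type*} (H : Subgroup GQ) (c : GQ → X) : Prop :=
  ∃ L : IntermediateField ℚ Qb, FiniteDimensional ℚ L ∧
    ∀ σ ∈ H, ∀ τ ∈ H, (∀ x ∈ L, τ x = x) → c (σ * τ) = c σ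

/-- The 2-cochain `f` has finite level on the subgroup `H`. -/
def HasLevelOn₂ {X : Type*} (H : Subgroup GQ) (f : GQ → GQ → X) : Prop :=
  ∃ L : IntermediateField ℚ Qb, FiniteDimensional ℚ L ∧
    ∀ σ ∈ H, ∀ τ ∈ H, ∀ α ∈ H, ∀ β ∈ H, (∀ x ∈ L, α x = x) → (∀ x ∈ L, β x = x) →
      f (σ * α) (τ * β) = f σ τ

/-- The field `L` is unramified outside the set `T` of primes: every inertia group over a prime
`q ∉ T` fixes `L` pointwise. -/
def UnramOutside (T : Finset ℕ) (L : IntermediateField ℚ Qb) : Prop :=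
  ∀ q : ℕ, q.Prime → q ∉ T → ∀ P : ValuationSubring Qb, P.LiesOverPrime q →
    ∀ α ∈ P.inertiaSubgroupIn ℚ, ∀ x ∈ L, α x = x

end Levels

section TwoCochains

variable {k : Type} [Field k] (p : ℕ)

/-- `f` is a twisted 2-cocycle (values in `k(1)`) on the subgroup `H`, of finite level on `H`. -/
def IsTw2CocycleOn (H : Subgroup GQ) (f : GQ → GQ → k) : Prop :=
  (∀ σ ∈ H, ∀ τ ∈ H, ∀ υ ∈ H, ∀ a : ℕ, IsCycExp p σ a →
      (a : k) * f τ υ - f (σ * τ) υ + f σ (τ * υ) - f σ τ = 0) ∧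
    HasLevelOn₂ H f

/-- `f` is, on the subgroup `H`, the twisted coboundary of a 1-cochain of finite level on `H`. -/
def IsTw2CoboundaryOn (H : Subgroup GQ) (f : GQ → GQ → k) : Prop :=
  ∃ lam : GQ → k, HasLevelOn H lam ∧
    ∀ σ ∈ H, ∀ τ ∈ H, ∀ a : ℕ, IsCycExp p σ a →
      f σ τ = (a : k) * lam τ - lam (σ * τ) + lam σ

/-- `f` is a twisted 2-cocycle on `G_ℚ`, inflated from a finite level unramified outside `T`. -/
def IsGlobalTw2Cocycle (T : Finset ℕ) (f : GQ → GQ → k) : Prop :=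
  (∀ (σ τ υ : GQ) (a : ℕ), IsCycExp p σ a →
      (a : k) * f τ υ - f (σ * τ) υ + f σ (τ * υ) - f σ τ = 0) ∧
    ∃ L : IntermediateField ℚ Qb, FiniteDimensional ℚ L ∧ UnramOutside T L ∧
      ∀ σ τ α β : GQ, (∀ x ∈ L, α x = x) → (∀ x ∈ L, β x = x) → f (σ * α) (τ * β) = f σ τ

end TwoCochains

section Local

variable {k : Type} [Field k] (ρbar : ResidualGaloisRep k) (p : ℕ)

/-- `x` is an (untwisted) ad⁰-cocycle on the subgroup `H`, of finite level on `H`. -/
structure IsAdCocycleOn (H : Subgroup GQ) (x : GQ → Module.End k ρbar.V) : Prop where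
  trace_eq_zero : ∀ σ ∈ H, LinearMap.trace k ρbar.V (x σ) = 0
  map_mul : ∀ σ ∈ H, ∀ τ ∈ H, x (σ * τ) = x σ + ρbar.ρ σ * x τ * ρbar.ρ σ⁻¹
  level : HasLevelOn H x

/-- `y` is a twisted ad⁰-cocycle on the subgroup `H`, of finite level on `H`. -/
structure IsTwCocycleOn (H : Subgroup GQ) (y : GQ → Module.End k ρbar.V) : Prop where
  trace_eq_zero : ∀ σ ∈ H, LinearMap.trace k ρbar.V (y σ) = 0
  map_mul : ∀ σ ∈ H, ∀ τ ∈ H, ∀ a : ℕ, IsCycExp p σ a →
    y (σ * τ) = y σ + twAd ρbar σ a (y τ)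
  level : HasLevelOn H y

/-- The cup product `M × M' → k(1)` (trace pairing) of two 1-cochains:
`(σ, τ) ↦ tr (x σ · ε(σ) ρ̄σ y(τ) ρ̄σ⁻¹)`, with `ε = det ρ̄`. -/
def cup (x y : GQ → Module.End k ρbar.V) (σ τ : GQ) : k :=
  LinearMap.trace k ρbar.V
    (x σ * (LinearMap.det (ρbar.ρ σ) • (ρbar.ρ σ * y τ * ρbar.ρ σ⁻¹)))

/-- The local hypotheses at a Taylor–Wiles prime `q` and a place `P ∣ q`. -/
structure TWLocal (q : ℕ) (P : ValuationSubring Qb) : Prop where
  hp : p.Prime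
  hp2 : p ≠ 2
  hchar : CharP k p
  hq : q.Prime
  hq1 : p ∣ q - 1
  hP : P.LiesOverPrime q
  hur : ρbar.IsUnramifiedAt q
  hdet : ∀ (σ : GQ) (a : ℕ), IsCycExp p σ a → LinearMap.det (ρbar.ρ σ) = (a : k)
  hfrob : ∀ φ : GQ, P.IsFrobeniusAt φ q →
    ∃ α β : k, α ≠ β ∧ LinearMap.charpoly (ρbar.ρ φ) = (X - C α) * (X - C β)

end Local

end Fermat.Agent.S56.GW

end
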