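import Fermat.Agent.S56.GW.RQGlueSub
import Fermat.Agent.S56.GW.InvRecAdapter
import Fermat.Agent.S56.RQ.RecipH14
import Fermat.Agent.S56.H305.Line

/-!
# Row S56 — (REC-Q) and (REC-Q-SUB): current state of the GW route (sub-architect helper546)

Consumed from main: INFL, CONJ-UR, CONJ-COB (helper546), LINE (helper305), RECIP (helper14,
`RQ.H14.plainRecip_of`, through the adapter `invRec_of_plainRecip`).  What is left:

    theorem recQSub_of_s55 : (∀ p S, p ≠ 2 → pPrime p ∈ S → S55.PT.InvSpec p S) →
        UrUrStatement → NonDegStatement → H716.RecQSubStatement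
    theorem recQ_of_s55    : (same hypotheses) → H716.RecQStatement
-/

set_option autoImplicit false

namespace Fermat.Agent.S56.GW

open Fermat.Agent.S56 Fermat.Agent.S56.H716 Fermat.Agent.S55.PT ExtCitation

/-- (INVREC) from the S55 input `PT.InvSpec`. -/
theorem invRec_of_s55
    (hS55 : ∀ (p : ℕ) [Fact p.Prime] (S : Finset Nat.Primes), p ≠ 2 → pPrime p ∈ S →
      InvSpec p S) : InvRecStatement :=
  invRec_of_plainRecip (Fermat.Agent.S56.RQ.H14.plainRecip_of hS55)

/-- **(REC-Q-SUB)** from `PT.InvSpec` and the two remaining local leaves URUR, NONDEG. -/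
theorem recQSub_of_s55
    (hS55 : ∀ (p : ℕ) [Fact p.Prime] (S : Finset Nat.Primes), p ≠ 2 → pPrime p ∈ S →
      InvSpec p S)
    (hurur : UrUrStatement) (hnd : NonDegStatement) : RecQSubStatement :=
  recQSub_of_four (invRec_of_s55 hS55) Fermat.Agent.S56.H305.lineStatement hurur hnd

/-- **(REC-Q)** from `PT.InvSpec` and the two remaining local leaves URUR, NONDEG. -/
theorem recQ_of_s55
    (hS55 : ∀ (p : ℕ) [Fact p.Prime] (S : Finset Nat.Primes), p ≠ 2 → pPrime p ∈ S →
      InvSpec p S)
    (hurur : UrUrStatement) (hnd : NonDegStatement) : RecQStatement :=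
  recQ_of_four (invRec_of_s55 hS55) Fermat.Agent.S56.H305.lineStatement hurur hnd

end Fermat.Agent.S56.GW
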