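import Fermat.Agent.S56.GW.RQCup
import Fermat.Agent.S56.GW.RQAbstract

/-!
# Row S56 — (REC-Q), layer 4: the glue (sub-architect helper546)

    theorem recQ_of : InvRecStatement → InflStatement → ConjUrStatement → ConjCobStatement →
        LineStatement → UrUrStatement → NonDegStatement → H716.RecQStatement

Proof.  `T = Smin ∪ Q`; (INVREC) gives places `Pl' v` and functionals `inv v`.  Put
`B q x y = inv q (cup x y)`, `Z q` = local ad⁰-cocycles on `D_{Pl' q}`, `Zur q` = those vanishing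
on `I_{Pl' q}`, `E` = strict Selmer cocycles of `Q`, and apply
`exists_complement_of_pairing` (`RQAbstract.lean`):
(LINE) is the leaf; (UR) = URUR + (i); (ND) = (ii) + NONDEG + `Kills`;
(REC) = (iii) for `cup c y` (a global 2-cocycle by INFL) + (i) at `v ∈ Smin` (CONJ-COB,
`dm ∪ y = d tr(m y)`); finally `E ∩ ⋂ Zur q` = strict Selmer cocycles of `∅` by CONJ-UR.
-/

set_option autoImplicit false

open Polynomial IsLocalRing

noncomputable section

namespace Fermat.Agent.S56.GW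

open Fermat.Agent.S56 Fermat.Agent.S56.H716

section Hyp

variable {𝒪 : Type} [CommRing 𝒪] [IsDomain 𝒪] [IsDiscreteValuationRing 𝒪]
  {p : ℕ} {ρbar : ResidualGaloisRep (ResidueField 𝒪)} {S Smin : Finset ℕ}

theorem charP_of_hyp (h : Hyp 𝒪 p ρbar S Smin) : CharP (ResidueField 𝒪) p :=
  (CharP.charP_iff_prime_eq_zero h.hp).mpr (Fermat.Agent.S56.H546.natCast_p_eq_zero h)

theorem isUnramifiedAt_of_notMem (h : Hyp 𝒪 p ρbar S Smin) {q : ℕ} (hq : q.Prime)
    (hqS : q ∉ Smin) : ρbar.IsUnramifiedAt q := by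
  have hqp : q ≠ p := fun e => hqS (e ▸ h.hpSmin)
  by_contra hne
  exact hqS ((h.hmin q hq hqp).2 hne)

theorem twLocal_of (h : Hyp 𝒪 p ρbar S Smin) {q : ℕ} (hq : IsTWPrime ρbar p S q)
    {P : ValuationSubring Qb} (hP : P.LiesOverPrime q) : TWLocal ρbar p q P where
  hp := h.hp
  hp2 := h.hp2
  hchar := charP_of_hyp h
  hq := hq.1
  hq1 := hq.2.2.1
  hP := hP
  hur := isUnramifiedAt_of_notMem h hq.1 fun hm => hq.2.1 (h.hSmin hm)
  hdet := fun _ _ ha => Fermat.Agent.S56.H546.det_eq_of_isCycExp h ha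
  hfrob := hq.2.2.2 P hP

end Hyp

section Global

variable {k : Type} [Field k] {ρbar : ResidualGaloisRep k} {p : ℕ}

/-- The subgroup of elements invisible to `c`, `y` and `ρ̄`. -/
def invisible (ρbar : ResidualGaloisRep k) (c y : GQ → Module.End k ρbar.V) : Subgroup GQ where
  carrier := {α | (∀ σ, c (σ * α) = c σ) ∧ ρbar.ρ α = 1 ∧ ∀ τ, y (τ * α) = y τ}
  mul_mem' := by
    rintro α β ⟨h1, h2, h3⟩ ⟨h1', h2', h3'⟩
    refine ⟨fun σ => ?_, ?_, fun τ => ?_⟩
    · rw [← mul_assoc, h1', h1]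
    · rw [ρbar.ρ.map_mul, h2, h2', mul_one]
    · rw [← mul_assoc, h3', h3]
  one_mem' := ⟨fun σ => by rw [mul_one], ρbar.ρ.map_one, fun τ => by rw [mul_one]⟩
  inv_mem' := by
    rintro α ⟨h1, h2, h3⟩
    refine ⟨fun σ => ?_, rho_inv_eq_one ρbar h2, fun τ => ?_⟩
    · have := h1 (σ * α⁻¹)
      rw [inv_mul_cancel_right] at this
      exact this.symm
    · have := h3 (τ * α⁻¹)
      rw [inv_mul_cancel_right] at this
      exact this.symm

/-- The cup product of a global ad⁰-cocycle and a global twisted cocycle, both unramified outside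
`T` (and `ρ̄` unramified outside `T`), is a global twisted 2-cocycle inflated from a finite level
unramified outside `T`. -/
theorem cup_isGlobalTw2Cocycle (hinfl : InflStatement) (hp : p ≠ 0)
    (hdet : ∀ (σ : GQ) (a : ℕ), IsCycExp p σ a → LinearMap.det (ρbar.ρ σ) = (a : k))
    (T : Finset ℕ) {c y : GQ → Module.End k ρbar.V}
    (hc : IsAdCocycle ρbar c) (hy : IsTwCocycle ρbar p y)
    (hcur : ∀ q : ℕ, q.Prime → q ∉ T → UnramAt ρbar c q)
    (hyur : ∀ q : ℕ, q.Prime → q ∉ T → UnramAt ρbar y q)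
    (hρur : ∀ q : ℕ, q.Prime → q ∉ T → ρbar.IsUnramifiedAt q) :
    IsGlobalTw2Cocycle p T (cup ρbar c y) := by
  refine ⟨fun σ τ υ a ha => ?_, ?_⟩
  · exact (cup_isTw2CocycleOn hp hdet (isAdCocycleOn_of_global hc ⊤) (isTwCocycleOn_of_global hy ⊤)).1 σ (Subgroup.mem_top σ) τ
      (Subgroup.mem_top τ) υ (Subgroup.mem_top υ) a ha
  · obtain ⟨L₁, hL₁, h₁⟩ := hc.level
    obtain ⟨L₂, hL₂, h₂⟩ := hy.level
    obtain ⟨L₃, hL₃, h₃⟩ := ρbar.factorsThroughFiniteLevel
    obtain ⟨L', hL', hL'ur, hL'R⟩ := hinfl T (L₁ ⊔ L₂ ⊔ L₃) inferInstance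
    refine ⟨L', hL', hL'ur, fun σ τ α β hα hβ => ?_⟩
    have hR : ∀ γ : GQ, (∀ x ∈ L', γ x = x) → γ ∈ invisible ρbar c y := by
      refine hL'R (invisible ρbar c y) (fun γ hγ => ⟨fun σ => ?_, ?_, fun τ => ?_⟩)
        (fun q hq hqT P hP γ hγ => ⟨fun σ => ?_, ?_, fun τ => ?_⟩)
      · exact h₁ σ γ fun z hz => hγ z ((le_sup_left : L₁ ≤ L₁ ⊔ L₂).trans le_sup_left hz)
      · exact h₃ γ fun z hz => hγ z ((le_sup_right : L₃ ≤ _) hz)
      · exact h₂ τ γ fun z hz => hγ z ((le_sup_right : L₂ ≤ L₁ ⊔ L₂).trans le_sup_left hz)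
      · rw [hc.map_mul, hcur q hq hqT P hP γ hγ, mul_zero, zero_mul, add_zero]
      · exact hρur q hq hqT P hP γ hγ
      · obtain ⟨b, hb⟩ := Fermat.Agent.S56.H546.exists_isCycExp p hp τ
        rw [hy.map_mul τ γ b hb, hyur q hq hqT P hP γ hγ]
        simp [twAd]
    obtain ⟨hα1, hα2, -⟩ := hR α hα
    obtain ⟨-, -, hβ3⟩ := hR β hβ
    exact cup_mul_right_eq hα1 hα2 hβ3 σ τ

end Global

section Main

variable (𝒪 : Type) [CommRing 𝒪] [IsDomain 𝒪] [IsDiscreteValuationRing 𝒪]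
  [Finite (ResidueField 𝒪)]
  (p : ℕ) (ρbar : ResidualGaloisRep (ResidueField 𝒪)) (S Smin : Finset ℕ)

/-- **Glue** `REC-Q ⇐ INVREC + INFL + CONJ-UR + CONJ-COB + LINE + URUR + NONDEG`, for one
residual representation. -/
theorem recQ_of_leaves (hinv : InvRecStatement) (hinfl : InflStatement)
    (hcu : ConjUrStatement) (hcc : ConjCobStatement) (hline : LineStatement)
    (hurur : UrUrStatement) (hnd : NonDegStatement) (h : Hyp 𝒪 p ρbar S Smin) :
    RecQ 𝒪 p ρbar S Smin := by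
  classical
  intro Pl hPl D hD hDur Q hQ hK
  have : CharP (ResidueField 𝒪) p := charP_of_hyp h
  have hp0 : p ≠ 0 := h.hp.ne_zero
  have hdet : ∀ (σ : GQ) (a : ℕ), IsCycExp p σ a →
      LinearMap.det (ρbar.ρ σ) = (a : ResidueField 𝒪) :=
    fun _ _ ha => Fermat.Agent.S56.H546.det_eq_of_isCycExp h ha
  have hQSmin : ∀ q ∈ Q, q ∉ Smin := fun q hq hm => (hQ q hq).2.1 (h.hSmin hm)
  have hTprime : ∀ v ∈ Smin ∪ Q, v.Prime := by
    intro v hv
    rcases Finset.mem_union.1 hv with hv | hv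
    · exact h.hS v (h.hSmin hv)
    · exact (hQ v hv).1
  have hpT : p ∈ Smin ∪ Q := Finset.mem_union_left _ h.hpSmin
  obtain ⟨Pl', inv, hPl', hinv1, hinv2, hinv3⟩ :=
    hinv (ResidueField 𝒪) p h.hp h.hp2 (Smin ∪ Q) hTprime hpT
  have hQT : ∀ q ∈ Q, q ∈ Smin ∪ Q := fun q hq => Finset.mem_union_right _ hq
  have hTW : ∀ q ∈ Q, TWLocal ρbar p q (Pl' q) := fun q hq =>
    twLocal_of h (hQ q hq) (hPl' q (hQT q hq))
  have : Module.Finite (ResidueField 𝒪) D := hD.finite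
  have hDy : ∀ y ∈ D, ∀ q ∈ Q, ∀ σ ∈ (Pl' q).inertiaSubgroupIn ℚ, y σ = 0 := fun y hy q hq =>
    hDur y hy q (hQ q hq).1 (hQSmin q hq) (Pl' q) (hPl' q (hQT q hq))
  obtain ⟨U, hUE, hUfin, hUdim, hU⟩ := exists_complement_of_pairing (ι := ↥Q)
    (fun q => locZ ρbar ((Pl' q.1).decompositionSubgroup ℚ))
    (fun q => locZur ρbar ((Pl' q.1).decompositionSubgroup ℚ)
      ((Pl' q.1).inertiaSubgroupIn ℚ))
    (selSub ρbar Pl Smin Q) D
    (fun q => (cupL ρbar).compr₂ (inv q.1))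
    (fun q c hc => isAdCocycleOn_of_global (IsSelCocycle.cocycle hc) _)
    (fun q x₁ hx₁ x₂ hx₂ => by
      obtain ⟨a, b, hab, hv⟩ := hline (ResidueField 𝒪) ρbar p q.1 (Pl' q.1) (hTW q.1 q.2)
        x₁ x₂ hx₁ hx₂
      exact ⟨a, b, hab, (IsAdCocycleOn.smul ρbar a hx₁).add ρbar (IsAdCocycleOn.smul ρbar b hx₂),
        fun σ hσ => hv σ hσ⟩)
    (fun q x hx y hy => by
      rw [LinearMap.compr₂_apply, cupL_apply]
      exact hinv1 q.1 (hQT q.1 q.2) _
        (hurur (ResidueField 𝒪) ρbar p q.1 (Pl' q.1) (hTW q.1 q.2) x y hx.1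
          (isTwCocycleOn_of_global (hD.isTwCocycle y hy) _) hx.2 (hDy y hy q.1 q.2)))
    (fun y hy hall => hK y hy fun q hq =>
      ⟨Pl' q, hPl' q (hQT q hq),
        hnd (ResidueField 𝒪) ρbar p q (Pl' q) (hTW q hq) y (isTwCocycleOn_of_global (hD.isTwCocycle y hy) _)
          (hDy y hy q hq) fun x hx => by
            have h0 := hall ⟨q, hq⟩ x hx
            rw [LinearMap.compr₂_apply, cupL_apply] at h0
            exact hinv2 q (hQT q hq) (hQ q hq).2.2.1 _
              (cup_isTw2CocycleOn hp0 hdet hx (isTwCocycleOn_of_global (hD.isTwCocycle y hy) _)) h0⟩)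
    (fun c hc y hy => by
      have hcS : IsSelCocycle ρbar Pl (fun _ => ⊥) Smin Q c := hc
      have hglob := hinv3 (cup ρbar c y)
        (cup_isGlobalTw2Cocycle hinfl hp0 hdet (Smin ∪ Q) hcS.cocycle (hD.isTwCocycle y hy)
          hcS.unram
          (fun q hq hqT => hDur y hy q hq fun hm => hqT (Finset.mem_union_left _ hm))
          (fun q hq hqT => isUnramifiedAt_of_notMem h hq fun hm =>
            hqT (Finset.mem_union_left _ hm)))
      have hdisj : Disjoint Smin Q := Finset.disjoint_left.2 fun v hv hvQ => hQSmin v hvQ hv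
      rw [Finset.sum_union hdisj] at hglob
      have hSmin0 : ∑ v ∈ Smin, inv v (cup ρbar c y) = 0 := by
        refine Finset.sum_eq_zero fun v hv => ?_
        obtain ⟨t, ht, hcob⟩ := hcS.loc v hv
        have ht0 : t = 0 := (Submodule.mem_bot _).1 ht
        rw [ht0, sub_zero] at hcob
        have hvT : v ∈ Smin ∪ Q := Finset.mem_union_left _ hv
        have hcob' := hcc (ResidueField 𝒪) ρbar v (Pl v) (Pl' v) (hTprime v hvT) (hPl v hv)
          (hPl' v hvT) c hcS.cocycle hcob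
        exact hinv1 v hvT _
          (cup_isTw2CoboundaryOn_of_coboundary hp0 hdet hcob' (isTwCocycleOn_of_global (hD.isTwCocycle y hy) _))
      rw [hSmin0, zero_add] at hglob
      rw [← hglob, ← Finset.sum_coe_sort Q]
      rfl)
  refine ⟨U, hUfin, by rwa [Fintype.card_coe] at hUdim, fun c hc => ?_⟩
  obtain ⟨u, hu, huc⟩ := hU c hc
  have huE : IsSelCocycle ρbar Pl (fun _ => ⊥) Smin Q u := hUE hu
  have hcu' : IsSelCocycle ρbar Pl (fun _ => ⊥) Smin Q (c - u) := hc.sub ρbar huE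
  refine ⟨u, hu, c - u, ⟨hcu'.cocycle, fun q hq hqn => ?_, hcu'.loc⟩, ?_⟩
  · have hqSmin : q ∉ Smin := fun hm => hqn (Finset.mem_union_left _ hm)
    by_cases hqQ : q ∈ Q
    · exact hcu (ResidueField 𝒪) ρbar q (Pl' q) hq (hPl' q (hQT q hqQ))
        (isUnramifiedAt_of_notMem h hq hqSmin) (c - u) hcu'.cocycle (huc ⟨q, hqQ⟩).2
    · exact hcu'.unram q hq fun hm => by
        rcases Finset.mem_union.1 hm with hm | hm
        · exact hqSmin hm
        · exact hqQ hm
  · rw [sub_self]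
    exact ⟨0, fun σ => by simp⟩

end Main

/-- **(REC-Q) from its leaves.** -/
theorem recQ_of (hinv : InvRecStatement) (hinfl : InflStatement)
    (hcu : ConjUrStatement) (hcc : ConjCobStatement) (hline : LineStatement)
    (hurur : UrUrStatement) (hnd : NonDegStatement) : RecQStatement :=
  fun 𝒪 _ _ _ _ _ p ρbar S Smin hyp =>
    recQ_of_leaves 𝒪 p ρbar S Smin hinv hinfl hcu hcc hline hurur hnd hyp

end Fermat.Agent.S56.GW

end
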