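import Fermat.Agent.S56.GW.RQTop
import Fermat.Agent.S56.H716.GWSpec4

/-!
# Row S56 — (REC-Q-SUB), layer 4: the glue for ROUTE C (sub-architect helper546)

Same proof as `GW/RQGlue.lean`, with the strict conditions at any `S'`, `Smin ⊆ S' ⊆ S`:

    theorem recQSub_of : InvRecStatement → InflStatement → ConjUrStatement → ConjCobStatement →
        LineStatement → UrUrStatement → NonDegStatement → H716.RecQSubStatement
    theorem recQSub_of_four : InvRecStatement → LineStatement → UrUrStatement → NonDegStatement →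
        H716.RecQSubStatement
-/

set_option autoImplicit false

open Polynomial IsLocalRing

noncomputable section

namespace Fermat.Agent.S56.GW

open Fermat.Agent.S56 Fermat.Agent.S56.H716

section MainSub

variable (𝒪 : Type) [CommRing 𝒪] [IsDomain 𝒪] [IsDiscreteValuationRing 𝒪]
  [Finite (ResidueField 𝒪)]
  (p : ℕ) (ρbar : ResidualGaloisRep (ResidueField 𝒪)) (S Smin : Finset ℕ)

/-- **Glue** `REC-Q-SUB ⇐ INVREC + INFL + CONJ-UR + CONJ-COB + LINE + URUR + NONDEG`, for one
residual representation and one set `Smin ⊆ S' ⊆ S`. -/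
theorem recQSub_of_leaves (hinv : InvRecStatement) (hinfl : InflStatement)
    (hcu : ConjUrStatement) (hcc : ConjCobStatement) (hline : LineStatement)
    (hurur : UrUrStatement) (hnd : NonDegStatement) (h : Hyp 𝒪 p ρbar S Smin)
    (S' : Finset ℕ) (hS'min : Smin ⊆ S') (hS'S : S' ⊆ S) :
    RecQ 𝒪 p ρbar S S' := by
  classical
  intro Pl hPl D hD hDur Q hQ hK
  have hur' : ∀ q : ℕ, q.Prime → q ∉ S' → ρbar.IsUnramifiedAt q := fun q hq hqS =>
    isUnramifiedAt_of_notMem h hq fun hm => hqS (hS'min hm)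
  have : CharP (ResidueField 𝒪) p := charP_of_hyp h
  have hp0 : p ≠ 0 := h.hp.ne_zero
  have hdet : ∀ (σ : GQ) (a : ℕ), IsCycExp p σ a →
      LinearMap.det (ρbar.ρ σ) = (a : ResidueField 𝒪) :=
    fun _ _ ha => Fermat.Agent.S56.H546.det_eq_of_isCycExp h ha
  have hQS' : ∀ q ∈ Q, q ∉ S' := fun q hq hm => (hQ q hq).2.1 (hS'S hm)
  have hTprime : ∀ v ∈ S' ∪ Q, v.Prime := by
    intro v hv
    rcases Finset.mem_union.1 hv with hv | hv
    · exact h.hS v (hS'S hv)
    · exact (hQ v hv).1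
  have hpT : p ∈ S' ∪ Q := Finset.mem_union_left _ (hS'min h.hpSmin)
  obtain ⟨Pl', inv, hPl', hinv1, hinv2, hinv3⟩ :=
    hinv (ResidueField 𝒪) p h.hp h.hp2 (S' ∪ Q) hTprime hpT
  have hQT : ∀ q ∈ Q, q ∈ S' ∪ Q := fun q hq => Finset.mem_union_right _ hq
  have hTW : ∀ q ∈ Q, TWLocal ρbar p q (Pl' q) := fun q hq =>
    twLocal_of h (hQ q hq) (hPl' q (hQT q hq))
  have : Module.Finite (ResidueField 𝒪) D := hD.finite
  have hDy : ∀ y ∈ D, ∀ q ∈ Q, ∀ σ ∈ (Pl' q).inertiaSubgroupIn ℚ, y σ = 0 := fun y hy q hq =>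
    hDur y hy q (hQ q hq).1 (hQS' q hq) (Pl' q) (hPl' q (hQT q hq))
  obtain ⟨U, hUE, hUfin, hUdim, hU⟩ := exists_complement_of_pairing (ι := ↥Q)
    (fun q => locZ ρbar ((Pl' q.1).decompositionSubgroup ℚ))
    (fun q => locZur ρbar ((Pl' q.1).decompositionSubgroup ℚ)
      ((Pl' q.1).inertiaSubgroupIn ℚ))
    (selSub ρbar Pl S' Q) D
    (fun q => (cupL ρbar).compr₂ (inv q.1))
    (fun q c hc => isAdCocycleOn_of_global (IsSelCocycle.cocycle hc) _)
    (fun q x₁ hx₁ x₂ hx₂ => by
      obtain ⟨a, b, hab, hv⟩ := hline (ResidueField 𝒪) ρbar p q.1 (Pl' q.1) (hTW q.1 q.2)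
        x₁ x₂ hx₁ hx₂
      exact ⟨a, b, hab, (IsAdCocycleOn.smul ρbar a hx₁).add ρbar (IsAdCocycleOn.smul ρbar b hx₂),
        fun σ hσ => hv σ hσ⟩)
    (fun q x hx y hy => by
      rw [LinearMap.compr₂_apply, cupL_apply]
      exact hinv1 q.1 (hQT q.1 q.2) _
        (hurur (ResidueField 𝒪) ρbar p q.1 (Pl' q.1) (hTW q.1 q.2) x y hx.1
          (isTwCocycleOn_of_global (hD.isTwCocycle y hy) _) hx.2 (hDy y hy q.1 q.2)))
    (fun y hy hall => hK y hy fun q hq =>
      ⟨Pl' q, hPl' q (hQT q hq),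
        hnd (ResidueField 𝒪) ρbar p q (Pl' q) (hTW q hq) y (isTwCocycleOn_of_global (hD.isTwCocycle y hy) _)
          (hDy y hy q hq) fun x hx => by
            have h0 := hall ⟨q, hq⟩ x hx
            rw [LinearMap.compr₂_apply, cupL_apply] at h0
            exact hinv2 q (hQT q hq) (hQ q hq).2.2.1 _
              (cup_isTw2CocycleOn hp0 hdet hx (isTwCocycleOn_of_global (hD.isTwCocycle y hy) _)) h0⟩)
    (fun c hc y hy => by
      have hcS : IsSelCocycle ρbar Pl (fun _ => ⊥) S' Q c := hc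
      have hglob := hinv3 (cup ρbar c y)
        (cup_isGlobalTw2Cocycle hinfl hp0 hdet (S' ∪ Q) hcS.cocycle (hD.isTwCocycle y hy)
          hcS.unram
          (fun q hq hqT => hDur y hy q hq fun hm => hqT (Finset.mem_union_left _ hm))
          (fun q hq hqT => hur' q hq fun hm => hqT (Finset.mem_union_left _ hm)))
      have hdisj : Disjoint S' Q := Finset.disjoint_left.2 fun v hv hvQ => hQS' v hvQ hv
      rw [Finset.sum_union hdisj] at hglob
      have hS'0 : ∑ v ∈ S', inv v (cup ρbar c y) = 0 := by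
        refine Finset.sum_eq_zero fun v hv => ?_
        obtain ⟨t, ht, hcob⟩ := hcS.loc v hv
        have ht0 : t = 0 := (Submodule.mem_bot _).1 ht
        rw [ht0, sub_zero] at hcob
        have hvT : v ∈ S' ∪ Q := Finset.mem_union_left _ hv
        have hcob' := hcc (ResidueField 𝒪) ρbar v (Pl v) (Pl' v) (hTprime v hvT) (hPl v hv)
          (hPl' v hvT) c hcS.cocycle hcob
        exact hinv1 v hvT _
          (cup_isTw2CoboundaryOn_of_coboundary hp0 hdet hcob' (isTwCocycleOn_of_global (hD.isTwCocycle y hy) _))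
      rw [hS'0, zero_add] at hglob
      rw [← hglob, ← Finset.sum_coe_sort Q]
      rfl)
  refine ⟨U, hUfin, by rwa [Fintype.card_coe] at hUdim, fun c hc => ?_⟩
  obtain ⟨u, hu, huc⟩ := hU c hc
  have huE : IsSelCocycle ρbar Pl (fun _ => ⊥) S' Q u := hUE hu
  have hcu' : IsSelCocycle ρbar Pl (fun _ => ⊥) S' Q (c - u) := hc.sub ρbar huE
  refine ⟨u, hu, c - u, ⟨hcu'.cocycle, fun q hq hqn => ?_, hcu'.loc⟩, ?_⟩
  · have hqS' : q ∉ S' := fun hm => hqn (Finset.mem_union_left _ hm)
    by_cases hqQ : q ∈ Q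
    · exact hcu (ResidueField 𝒪) ρbar q (Pl' q) hq (hPl' q (hQT q hqQ))
        (hur' q hq hqS') (c - u) hcu'.cocycle (huc ⟨q, hqQ⟩).2
    · exact hcu'.unram q hq fun hm => by
        rcases Finset.mem_union.1 hm with hm | hm
        · exact hqS' hm
        · exact hqQ hm
  · rw [sub_self]
    exact ⟨0, fun σ => by simp⟩

end MainSub

/-- **(REC-Q-SUB) from its leaves.** -/
theorem recQSub_of (hinv : InvRecStatement) (hinfl : InflStatement)
    (hcu : ConjUrStatement) (hcc : ConjCobStatement) (hline : LineStatement)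
    (hurur : UrUrStatement) (hnd : NonDegStatement) : RecQSubStatement :=
  fun 𝒪 _ _ _ _ _ p ρbar S Smin hyp S' h1 h2 =>
    recQSub_of_leaves 𝒪 p ρbar S Smin hinv hinfl hcu hcc hline hurur hnd hyp S' h1 h2

/-- **(REC-Q-SUB) from the four remaining leaves** INVREC, LINE, URUR, NONDEG. -/
theorem recQSub_of_four (hinv : InvRecStatement) (hline : LineStatement)
    (hurur : UrUrStatement) (hnd : NonDegStatement) : RecQSubStatement :=
  recQSub_of hinv H546.infl H546.conjUr H546.conjCob hline hurur hnd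


end Fermat.Agent.S56.GW

end
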