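import Fermat.Agent.S56.GW.RQDefs

/-!
# Row S56 — (REC-Q), layer 4: FROZEN statements (sub-architect helper546)

`REC-Q  ⇐  INVREC + INFL + CONJ-UR + CONJ-COB + LINE + URUR + NONDEG`
(glue: `Fermat/Agent/S56/GW/RQGlue.lean`, theorem `recQ_of`).

* `InvRecStatement` (INVREC, the ONLY non-elementary input = local invariants + reciprocity over
  `ℚ`; bridge to S55 `Inv.LocalInvRecipSpec` + `Inv.LocDimSpec`): for every finite set `T ∋ p` of
  primes there are places `Pl v ∣ v` and `k`-linear functionals `inv v` on plain 2-cochains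
  `G_ℚ → G_ℚ → k` which (i) kill the local twisted 2-coboundaries on `D_{Pl v}`, (ii) are injective
  on local twisted 2-cocycle classes when `v ≡ 1 mod p`, (iii) satisfy `∑_{v ∈ T} inv v f = 0` for
  every global twisted 2-cocycle `f` inflated from a finite level unramified outside `T`.
  NO normalisation, NO compatibility with anything else.
* `InflStatement` (INFL, Galois theory): for `L/ℚ` finite there is `L' ⊂ ℚ̄` finite, unramified
  outside `T`, whose fixing group is generated by `G_L` and the inertia groups outside `T`.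
* `ConjUrStatement` (CONJ-UR): a global ad⁰-cocycle vanishing on ONE inertia group over `q`
  (`ρ̄` unramified at `q`) vanishes on all of them.
* `ConjCobStatement` (CONJ-COB): a global ad⁰-cocycle which is a coboundary on ONE decomposition
  group over `v` is a coboundary on every decomposition group over `v`.
* `LineStatement` (LINE = LOC-TW): at a Taylor–Wiles prime, `H¹(D_P, M)/H¹_ur` is at most a line:
  two LOCAL ad⁰-cocycles on `D_P` have a non-trivial combination vanishing on `I_P`.
* `UrUrStatement` (URUR): at a Taylor–Wiles prime the cup product of two unramified local cocycles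
  is a local 2-coboundary (`H²(Ẑ, ·) = 0`; or: both are multiples of `h·ψ₀` and `ψ₀ ∪ ψ₀ = 0`).
* `NonDegStatement` (NONDEG): at a Taylor–Wiles prime, an unramified local twisted cocycle `y`
  whose cup product with EVERY local ad⁰-cocycle `x` on `D_P` is a local 2-coboundary is a
  twisted coboundary on `D_P`.  (Take `x = h·χ_q`, `h = ρ̄φ − tr/2`, `χ_q` the tame character of
  order `p`, and helper554's Heisenberg argument.)

Nothing unproved in this file.  Plan: `coord/S56-RECQ-helper546.md`.
-/

set_option autoImplicit false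

open Polynomial IsLocalRing

noncomputable section

namespace Fermat.Agent.S56.GW

open Fermat.Agent.S56 Fermat.Agent.S56.H716

/-- (INVREC) for one field `k`, one prime `p` and one finite set `T` of primes. -/
def InvRec (k : Type) [Field k] (p : ℕ) (T : Finset ℕ) : Prop :=
  ∃ (Pl : ℕ → ValuationSubring Qb) (inv : ℕ → (GQ → GQ → k) →ₗ[k] k),
    (∀ v ∈ T, (Pl v).LiesOverPrime v) ∧
    (∀ v ∈ T, ∀ f : GQ → GQ → k,
      IsTw2CoboundaryOn p ((Pl v).decompositionSubgroup ℚ) f → inv v f = 0) ∧
    (∀ v ∈ T, p ∣ v - 1 → ∀ f : GQ → GQ → k,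
      IsTw2CocycleOn p ((Pl v).decompositionSubgroup ℚ) f → inv v f = 0 →
        IsTw2CoboundaryOn p ((Pl v).decompositionSubgroup ℚ) f) ∧
    (∀ f : GQ → GQ → k, IsGlobalTw2Cocycle p T f → ∑ v ∈ T, inv v f = 0)

/-- (INVREC): local invariants with reciprocity, in plain 2-cochain language. -/
def InvRecStatement : Prop :=
  ∀ (k : Type) [Field k] [Finite k] (p : ℕ) [CharP k p], p.Prime → p ≠ 2 →
    ∀ T : Finset ℕ, (∀ v ∈ T, v.Prime) → p ∈ T → InvRec k p T

/-- (INFL): the maximal subfield of `L` unramified outside `T`. -/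
def InflStatement : Prop :=
  ∀ (T : Finset ℕ) (L : IntermediateField ℚ Qb), FiniteDimensional ℚ L →
    ∃ L' : IntermediateField ℚ Qb, FiniteDimensional ℚ L' ∧ UnramOutside T L' ∧
      ∀ R : Subgroup GQ, (∀ α : GQ, (∀ x ∈ L, α x = x) → α ∈ R) →
        (∀ q : ℕ, q.Prime → q ∉ T → ∀ P : ValuationSubring Qb, P.LiesOverPrime q →
          P.inertiaSubgroupIn ℚ ≤ R) →
        ∀ α : GQ, (∀ x ∈ L', α x = x) → α ∈ R

/-- (CONJ-UR): vanishing on one inertia group over `q` implies `UnramAt`. -/
def ConjUrStatement : Prop :=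
  ∀ (k : Type) [Field k] (ρbar : ResidualGaloisRep k) (q : ℕ) (P : ValuationSubring Qb),
    q.Prime → P.LiesOverPrime q → ρbar.IsUnramifiedAt q →
    ∀ c : GQ → Module.End k ρbar.V, IsAdCocycle ρbar c →
      (∀ σ ∈ P.inertiaSubgroupIn ℚ, c σ = 0) → UnramAt ρbar c q

/-- (CONJ-COB): being a coboundary on a decomposition group over `v` does not depend on the
place over `v`. -/
def ConjCobStatement : Prop :=
  ∀ (k : Type) [Field k] (ρbar : ResidualGaloisRep k) (v : ℕ) (P P' : ValuationSubring Qb),
    v.Prime → P.LiesOverPrime v → P'.LiesOverPrime v →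
    ∀ c : GQ → Module.End k ρbar.V, IsAdCocycle ρbar c →
      IsAdCoboundaryOn ρbar (P.decompositionSubgroup ℚ) c →
      IsAdCoboundaryOn ρbar (P'.decompositionSubgroup ℚ) c

/-- (LINE): the ramified quotient of the local `H¹` at a Taylor–Wiles prime is at most a line. -/
def LineStatement : Prop :=
  ∀ (k : Type) [Field k] [Finite k] (ρbar : ResidualGaloisRep k) (p q : ℕ)
    (P : ValuationSubring Qb), TWLocal ρbar p q P →
    ∀ x₁ x₂ : GQ → Module.End k ρbar.V,
      IsAdCocycleOn ρbar (P.decompositionSubgroup ℚ) x₁ →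
      IsAdCocycleOn ρbar (P.decompositionSubgroup ℚ) x₂ →
      ∃ a b : k, (a ≠ 0 ∨ b ≠ 0) ∧ ∀ σ ∈ P.inertiaSubgroupIn ℚ, a • x₁ σ + b • x₂ σ = 0

/-- (URUR): unramified ∪ unramified is a local 2-coboundary at a Taylor–Wiles prime. -/
def UrUrStatement : Prop :=
  ∀ (k : Type) [Field k] [Finite k] (ρbar : ResidualGaloisRep k) (p q : ℕ)
    (P : ValuationSubring Qb), TWLocal ρbar p q P →
    ∀ x y : GQ → Module.End k ρbar.V,
      IsAdCocycleOn ρbar (P.decompositionSubgroup ℚ) x →
      IsTwCocycleOn ρbar p (P.decompositionSubgroup ℚ) y →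
      (∀ σ ∈ P.inertiaSubgroupIn ℚ, x σ = 0) → (∀ σ ∈ P.inertiaSubgroupIn ℚ, y σ = 0) →
      IsTw2CoboundaryOn p (P.decompositionSubgroup ℚ) (cup ρbar x y)

/-- (NONDEG): right non-degeneracy of the tame local pairing at a Taylor–Wiles prime. -/
def NonDegStatement : Prop :=
  ∀ (k : Type) [Field k] [Finite k] (ρbar : ResidualGaloisRep k) (p q : ℕ)
    (P : ValuationSubring Qb), TWLocal ρbar p q P →
    ∀ y : GQ → Module.End k ρbar.V,
      IsTwCocycleOn ρbar p (P.decompositionSubgroup ℚ) y →
      (∀ σ ∈ P.inertiaSubgroupIn ℚ, y σ = 0) →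
      (∀ x : GQ → Module.End k ρbar.V, IsAdCocycleOn ρbar (P.decompositionSubgroup ℚ) x →
        IsTw2CoboundaryOn p (P.decompositionSubgroup ℚ) (cup ρbar x y)) →
      ∃ m : Module.End k ρbar.V, IsTwCoboundaryOn ρbar p (P.decompositionSubgroup ℚ) y m

end Fermat.Agent.S56.GW

end
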