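import Fermat.Agent.S56.GW.RQGlue
import Fermat.Agent.S56.GW.H546.Infl
import Fermat.Agent.S56.GW.H546.Conj

/-!
# Row S56 — (REC-Q), layer 4: what is left (sub-architect helper546)

INFL, CONJ-UR, CONJ-COB are proved (`GW/H546/{Infl,Conj}.lean`), so

    theorem recQ_of_four : InvRecStatement → LineStatement → UrUrStatement → NonDegStatement →
        H716.RecQStatement
-/

set_option autoImplicit false

namespace Fermat.Agent.S56.GW

open Fermat.Agent.S56 Fermat.Agent.S56.H716

/-- **(REC-Q) from the four remaining leaves** INVREC, LINE, URUR, NONDEG. -/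
theorem recQ_of_four (hinv : InvRecStatement) (hline : LineStatement)
    (hurur : UrUrStatement) (hnd : NonDegStatement) : RecQStatement :=
  recQ_of hinv H546.infl H546.conjUr H546.conjCob hline hurur hnd

end Fermat.Agent.S56.GW
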